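import Fermat.Agent.FLAT.Ord.Basic

/-!
# FLAT / [IND] : induction of a Hopf order from a subgroup   (Mathlib only)

`V₁ ≤ V` finite abelian groups, `H₁ ⊆ Map(V₁, K)` a comultiplication-closed order.
`ind V₁ H₁ := {f : V → K | ∀ v₀, (w ↦ f (v₀ + w)) ∈ H₁}` (`≅ ∏_{V/V₁} H₁`) is a comultiplication-closed
order on `V`.

Proof of `comulClosed_ind`: `H₁` is translation invariant (`p(w₁ + w) = ∑ a_i p_i(w₁) q_i(w)`,
`p_i(w₁) ∈ A`); extension by zero from a coset maps `H₁` into `ind`; decompose `V × V` into products of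
cosets.
-/

set_option autoImplicit false

noncomputable section

namespace Fermat.Agent.FLAT

variable {K : Type*} [Field K] {A : ValuationSubring K} {V : Type*} [AddCommGroup V]

/-- the induced algebra. -/
def ind (V₁ : AddSubgroup V) (H₁ : Subalgebra A (V₁ → K)) : Subalgebra A (V → K) where
  carrier := {f | ∀ v₀ : V, (fun w : V₁ => f (v₀ + w)) ∈ H₁}
  mul_mem' := fun {f g} hf hg v₀ => H₁.mul_mem (hf v₀) (hg v₀)
  add_mem' := fun {f g} hf hg v₀ => H₁.add_mem (hf v₀) (hg v₀)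
  algebraMap_mem' := fun a _ => H₁.algebraMap_mem a

theorem mem_ind {V₁ : AddSubgroup V} {H₁ : Subalgebra A (V₁ → K)} {f : V → K} :
    f ∈ ind V₁ H₁ ↔ ∀ v₀ : V, (fun w : V₁ => f (v₀ + w)) ∈ H₁ := Iff.rfl

variable {V₁ : AddSubgroup V} {H₁ : Subalgebra A (V₁ → K)}

/-- translation invariance of a comultiplication-closed order. -/
theorem translate_mem (h : IsOrd A H₁) (hΔ : ComulClosed (Subalgebra.toSubmodule H₁))
    {p : V₁ → K} (hp : p ∈ H₁) (w₁ : V₁) : (fun w => p (w₁ + w)) ∈ H₁ := by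
  have h1 := hΔ p hp
  set φ : (V₁ × V₁ → K) →ₗ[A] (V₁ → K) :=
    LinearMap.funLeft A K (fun w : V₁ => (w₁, w)) with hφ
  have h2 : box (Subalgebra.toSubmodule H₁) (Subalgebra.toSubmodule H₁) ≤
      (Subalgebra.toSubmodule H₁).comap φ := by
    refine Submodule.span_le.mpr ?_
    rintro F ⟨f, hf, g, hg, rfl⟩
    exact H₁.smul_mem hg (⟨f w₁, h.integral f hf w₁⟩ : A)
  exact h2 h1

/-- it suffices to check membership in `ind` on one representative of each coset. -/
theorem mem_ind_of_reps (h : IsOrd A H₁) (hΔ : ComulClosed (Subalgebra.toSubmodule H₁))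
    {f : V → K} (hf : ∀ v : V, ∃ v₀ : V, v - v₀ ∈ V₁ ∧ (fun w : V₁ => f (v₀ + w)) ∈ H₁) :
    f ∈ ind V₁ H₁ := by
  intro v
  obtain ⟨v₀, hv, hp⟩ := hf v
  have h1 := translate_mem h hΔ hp ⟨v - v₀, hv⟩
  have h2 : (fun w : V₁ => f (v + w)) =
      fun w : V₁ => f (v₀ + ((⟨v - v₀, hv⟩ + w : V₁) : V)) := by
    funext w
    congr 1
    simp only [AddSubgroup.coe_add]
    abel
  rw [h2]
  exact h1

open Classical in
/-- indicator functions of cosets. -/
theorem indicator_mem_ind (v₀ : V) :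
    (fun v => if v - v₀ ∈ V₁ then (1 : K) else 0) ∈ ind V₁ H₁ := by
  intro v
  have hiff : ∀ w : V₁, (v + w - v₀ ∈ V₁ ↔ v - v₀ ∈ V₁) := by
    intro w
    have : v + w - v₀ = (v - v₀) + w := by abel
    rw [this]
    exact V₁.add_mem_cancel_right w.2
  simp only [hiff]
  by_cases hv : v - v₀ ∈ V₁
  · simp only [if_pos hv]
    exact H₁.one_mem
  · simp only [if_neg hv]
    exact H₁.zero_mem

theorem isOrd_ind [Finite V] (h : IsOrd A H₁) : IsOrd A (ind V₁ H₁) := by
  refine ⟨fun f hf v => ?_, ?_⟩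
  · have := h.integral _ (hf v) 0
    simpa using this
  · obtain ⟨ϖ, hϖ, hc⟩ := h.conductor
    refine ⟨ϖ, hϖ, fun f hf v₀ => ?_⟩
    exact hc (fun w : V₁ => f (v₀ + w)) fun w => hf _

open Classical in
/-- extension by zero from the coset `r + V₁`. -/
def extZero (V₁ : AddSubgroup V) (r : V) (q : V₁ → K) : V → K :=
  fun v => if h : v - r ∈ V₁ then q ⟨v - r, h⟩ else 0

theorem extZero_mem_ind (h : IsOrd A H₁) (hΔ : ComulClosed (Subalgebra.toSubmodule H₁))
    {q : V₁ → K} (hq : q ∈ H₁) (r : V) : extZero V₁ r q ∈ ind V₁ H₁ := by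
  classical
  apply mem_ind_of_reps h hΔ
  intro v
  by_cases hv : v - r ∈ V₁
  · refine ⟨r, hv, ?_⟩
    have : (fun w : V₁ => extZero V₁ r q (r + w)) = q := by
      funext w
      have hw : r + (w : V) - r = w := by abel
      simp only [extZero, hw, SetLike.coe_mem, dite_true, Subtype.coe_eta]
    rw [this]
    exact hq
  · refine ⟨v, by simp, ?_⟩
    have : (fun w : V₁ => extZero V₁ r q (v + w)) = 0 := by
      funext w
      have hw : v + (w : V) - r ∉ V₁ := by
        have : v + (w : V) - r = (v - r) + w := by abel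
        rw [this, V₁.add_mem_cancel_right w.2]
        exact hv
      simp only [extZero, dif_neg hw, Pi.zero_apply]
    rw [this]
    exact H₁.zero_mem

/-- **[IND]** -/
theorem comulClosed_ind [Finite V] (h : IsOrd A H₁)
    (hΔ : ComulClosed (Subalgebra.toSubmodule H₁)) :
    ComulClosed (Subalgebra.toSubmodule (ind V₁ H₁)) := by
  classical
  intro f hf
  have : Fintype (V ⧸ V₁) := Fintype.ofFinite _
  have piece : ∀ r₁ r₂ : V,
      (fun p : V × V => if p.1 - r₁ ∈ V₁ ∧ p.2 - r₂ ∈ V₁ then f (p.1 + p.2) else 0) ∈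
        box (Subalgebra.toSubmodule (ind V₁ H₁)) (Subalgebra.toSubmodule (ind V₁ H₁)) := by
    intro r₁ r₂
    let Ψ : (V₁ × V₁ → K) →ₗ[A] (V × V → K) :=
      { toFun := fun G p =>
          if h : p.1 - r₁ ∈ V₁ ∧ p.2 - r₂ ∈ V₁ then G (⟨_, h.1⟩, ⟨_, h.2⟩) else 0
        map_add' := by
          intro G G'
          funext p
          by_cases hp : p.1 - r₁ ∈ V₁ ∧ p.2 - r₂ ∈ V₁
          · simp only [dif_pos hp, Pi.add_apply]
          · simp only [dif_neg hp, Pi.add_apply, add_zero]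
        map_smul' := by
          intro a G
          funext p
          by_cases hp : p.1 - r₁ ∈ V₁ ∧ p.2 - r₂ ∈ V₁
          · simp only [dif_pos hp, Pi.smul_apply, RingHom.id_apply]
          · simp only [dif_neg hp, Pi.smul_apply, RingHom.id_apply, smul_zero] }
    have h1 : box (Subalgebra.toSubmodule H₁) (Subalgebra.toSubmodule H₁) ≤
        (box (Subalgebra.toSubmodule (ind V₁ H₁)) (Subalgebra.toSubmodule (ind V₁ H₁))).comap
          Ψ := by
      refine Submodule.span_le.mpr ?_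
      rintro _ ⟨a, ha, b, hb, rfl⟩
      refine Submodule.subset_span ⟨extZero V₁ r₁ a, extZero_mem_ind h hΔ ha r₁,
        extZero V₁ r₂ b, extZero_mem_ind h hΔ hb r₂, ?_⟩
      funext p
      change (if h : p.1 - r₁ ∈ V₁ ∧ p.2 - r₂ ∈ V₁ then a ⟨_, h.1⟩ * b ⟨_, h.2⟩ else 0) = _
      by_cases hp1 : p.1 - r₁ ∈ V₁
      · by_cases hp2 : p.2 - r₂ ∈ V₁
        · simp only [extZero, dif_pos hp1, dif_pos hp2, dif_pos (And.intro hp1 hp2)]
        · have : ¬ (p.1 - r₁ ∈ V₁ ∧ p.2 - r₂ ∈ V₁) := fun h => hp2 h.2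
          simp only [extZero, dif_neg hp2, dif_neg this, mul_zero]
      · have : ¬ (p.1 - r₁ ∈ V₁ ∧ p.2 - r₂ ∈ V₁) := fun h => hp1 h.1
        simp only [extZero, dif_neg hp1, dif_neg this, zero_mul]
    have h2 := h1 (hΔ (fun w : V₁ => f (r₁ + r₂ + w)) (hf (r₁ + r₂)))
    have h3 : Ψ (fun q : V₁ × V₁ => f (r₁ + r₂ + ((q.1 + q.2 : V₁) : V))) =
        (fun p : V × V => if p.1 - r₁ ∈ V₁ ∧ p.2 - r₂ ∈ V₁ then f (p.1 + p.2) else 0) := by
      funext p
      change (if h : p.1 - r₁ ∈ V₁ ∧ p.2 - r₂ ∈ V₁ then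
        f (r₁ + r₂ + (((⟨_, h.1⟩ : V₁) + (⟨_, h.2⟩ : V₁) : V₁) : V)) else 0) = _
      by_cases hp : p.1 - r₁ ∈ V₁ ∧ p.2 - r₂ ∈ V₁
      · rw [dif_pos hp, if_pos hp]
        congr 1
        simp only [AddSubgroup.coe_add]
        abel
      · rw [dif_neg hp, if_neg hp]
    rw [Submodule.mem_comap, h3] at h2
    exact h2
  have hmem : ∀ (v : V) (c : V ⧸ V₁), v - c.out ∈ V₁ ↔ (v : V ⧸ V₁) = c := by
    intro v c
    conv_rhs => rw [← QuotientAddGroup.out_eq' c]
    rw [eq_comm, QuotientAddGroup.eq]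
    have : -Quotient.out c + v = v - c.out := by abel
    rw [this]
  have hsum : (fun p : V × V => f (p.1 + p.2)) = ∑ c : (V ⧸ V₁) × (V ⧸ V₁),
      (fun p : V × V => if p.1 - c.1.out ∈ V₁ ∧ p.2 - c.2.out ∈ V₁ then f (p.1 + p.2) else 0) := by
    funext p
    rw [Finset.sum_apply, Finset.sum_eq_single ((p.1 : V ⧸ V₁), (p.2 : V ⧸ V₁))]
    · rw [if_pos]
      exact ⟨(hmem _ _).mpr rfl, (hmem _ _).mpr rfl⟩
    · intro c _ hc
      rw [if_neg]
      rintro ⟨h1, h2⟩
      exact hc (Prod.ext ((hmem _ _).mp h1).symm ((hmem _ _).mp h2).symm)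
    · intro hh
      exact absurd (Finset.mem_univ _) hh
  rw [hsum]
  exact sum_mem fun c _ => piece _ _

end Fermat.Agent.FLAT
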