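import Fermat.Agent.FLAT.Ord.Basic

/-!
# FLAT / [NEWTON] : Newton iteration in an order   (Mathlib only)

`τ : S → 𝔪_A` satisfies `∑_{m<n} e_m τ^m + τ^n ρ = 0` with `e_m ∈ Hh`, `e_1` unit valued, `ρ` integral,
and `v(τ s)^n ≤ v(ϖ)` where `ϖ Map(S, A) ⊆ Hh`.  Then `τ ∈ Hh`.

Proof.  `T(y) := - e_1⁻¹ (e_0 + ∑_{2 ≤ m < n} e_m y^m)` maps `Hh` to `Hh` (`IsOrd.inv_mem`);
`τ = T(τ) - e_1⁻¹ τ^n ρ`; `τ_0 := 0`, `τ_{k+1} := T(τ_k)`.  Pointwise, by induction on `k < n`: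
`v(τ_k s - τ s) ≤ v(τ s)^(k+1)` (use `y^m - τ^m = (y - τ) * ∑ …`, `m ≥ 2`).  Hence
`τ - τ_{n-1} ∈ ϖ Map(S, A) ⊆ Hh`.
-/

set_option autoImplicit false

noncomputable section

namespace Fermat.Agent.FLAT

variable {K : Type*} [Field K] {A : ValuationSubring K} {S : Type*}

/-- `v(y^m - t^m) ≤ v(y - t) v(t)` for `m ≥ 2`, `v y ≤ v t ≤ 1`. -/
theorem valuation_pow_sub_pow_le {Γ₀ : Type*} [LinearOrderedCommGroupWithZero Γ₀]
    (v : Valuation K Γ₀) {y t : K} (hy : v y ≤ v t) (ht : v t ≤ 1) {m : ℕ} (hm : 2 ≤ m) :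
    v (y ^ m - t ^ m) ≤ v t * v (y - t) := by
  rw [← geom_sum₂_mul, map_mul]
  refine mul_le_mul_left ?_ _
  refine Valuation.map_sum_le _ fun i hi => ?_
  rw [map_mul, map_pow, map_pow]
  have hi' : i < m := Finset.mem_range.1 hi
  calc v y ^ i * v t ^ (m - 1 - i) ≤ v t ^ i * v t ^ (m - 1 - i) :=
        mul_le_mul_left (pow_le_pow_left₀ zero_le hy i) _
    _ = v t ^ (m - 1) := by rw [← pow_add]; congr 1; omega
    _ ≤ v t := pow_le_of_le_one zero_le ht (by omega)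

/-- one Newton step, pointwise. -/
theorem newton_step {Γ₀ : Type*} [LinearOrderedCommGroupWithZero Γ₀] (v : Valuation K Γ₀)
    {t y ρ : K} {E : ℕ → K} (hE : ∀ m, v (E m) ≤ 1) (hE1 : v (E 1) = 1) (hρ : v ρ ≤ 1)
    (ht : v t < 1) {n j : ℕ} (hn : 2 ≤ n) (hj : 1 ≤ j) (hjn : j + 1 ≤ n)
    (heq : ∑ m ∈ Finset.range n, E m * t ^ m + t ^ n * ρ = 0) (hy : v (y - t) ≤ v t ^ j) :
    v (-(E 1)⁻¹ * (E 0 + ∑ m ∈ Finset.Ico 2 n, E m * y ^ m) - t) ≤ v t ^ (j + 1) := by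
  have hE10 : E 1 ≠ 0 := by
    intro h0
    rw [h0, map_zero] at hE1
    exact zero_ne_one hE1
  have hsplit : ∑ m ∈ Finset.range n, E m * t ^ m =
      E 0 + E 1 * t + ∑ m ∈ Finset.Ico 2 n, E m * t ^ m := by
    rw [Finset.range_eq_Ico, Finset.sum_eq_sum_Ico_succ_bot (by omega),
      Finset.sum_eq_sum_Ico_succ_bot (by omega)]
    simp only [pow_zero, mul_one, pow_one, zero_add, Nat.reduceAdd]
    ring
  have hid : -(E 1)⁻¹ * (E 0 + ∑ m ∈ Finset.Ico 2 n, E m * y ^ m) - t =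
      -(E 1)⁻¹ * (∑ m ∈ Finset.Ico 2 n, E m * (y ^ m - t ^ m) - t ^ n * ρ) := by
    rw [hsplit] at heq
    have h1 : ∑ m ∈ Finset.Ico 2 n, E m * (y ^ m - t ^ m) =
        ∑ m ∈ Finset.Ico 2 n, E m * y ^ m - ∑ m ∈ Finset.Ico 2 n, E m * t ^ m := by
      rw [← Finset.sum_sub_distrib]
      exact Finset.sum_congr rfl fun m _ => by ring
    rw [h1]
    field_simp
    linear_combination -heq
  have hyt : v y ≤ v t := by
    have h1 : y = (y - t) + t := by ring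
    rw [h1]
    refine (v.map_add _ _).trans (max_le (hy.trans ?_) le_rfl)
    exact pow_le_of_le_one zero_le ht.le (by omega)
  rw [hid, map_mul, Valuation.map_neg, map_inv₀, hE1, inv_one, one_mul]
  refine (v.map_sub _ _).trans (max_le ?_ ?_)
  · refine Valuation.map_sum_le _ fun m hm => ?_
    rw [map_mul]
    refine (mul_le_of_le_one_left' (hE m)).trans ?_
    refine (valuation_pow_sub_pow_le v hyt ht.le (Finset.mem_Ico.1 hm).1).trans ?_
    rw [pow_succ']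
    exact mul_le_mul_right hy _
  · rw [map_mul, map_pow]
    refine (mul_le_of_le_one_right' hρ).trans ?_
    exact pow_le_pow_of_le_one zero_le ht.le hjn

/-- **[NEWTON]** -/
theorem IsOrd.newton [Finite S] {Hh : Subalgebra A (S → K)} (h : IsOrd A Hh)
    {ϖ : K} (hϖ : ∀ f : S → K, (∀ s, f s ∈ A) → ϖ • f ∈ Hh)
    (τ : S → K) (hτ : ∀ s, A.valuation (τ s) < 1)
    (n : ℕ) (hn : 2 ≤ n) (hnϖ : ∀ s, A.valuation (τ s) ^ n ≤ A.valuation ϖ)
    (e : ℕ → S → K) (he : ∀ m, e m ∈ Hh) (he1 : ∀ s, A.valuation (e 1 s) = 1)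
    (ρ : S → K) (hρ : ∀ s, ρ s ∈ A)
    (heq : ∀ s, ∑ m ∈ Finset.range n, e m s * τ s ^ m + τ s ^ n * ρ s = 0) :
    τ ∈ Hh := by
  have hinv : (fun s => (e 1 s)⁻¹) ∈ Hh := h.inv_mem (he 1) he1
  -- the approximations
  have key : ∀ j : ℕ, 1 ≤ j → j ≤ n →
      ∃ y ∈ Hh, ∀ s, A.valuation (y s - τ s) ≤ A.valuation (τ s) ^ j := by
    intro j hj
    induction j, hj using Nat.le_induction with
    | base =>
      intro _
      exact ⟨0, Hh.zero_mem, fun s => by simp⟩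
    | succ j hj ih =>
      intro hjn
      obtain ⟨y, hy, hys⟩ := ih (by omega)
      refine ⟨-(fun s => (e 1 s)⁻¹) * (e 0 + ∑ m ∈ Finset.Ico 2 n, e m * y ^ m), ?_, fun s => ?_⟩
      · exact Hh.mul_mem (Hh.neg_mem hinv) (Hh.add_mem (he 0)
          (Subalgebra.sum_mem _ fun m _ => Hh.mul_mem (he m) (Hh.pow_mem hy m)))
      · have := newton_step A.valuation (t := τ s) (y := y s) (ρ := ρ s) (E := fun m => e m s)
          (fun m => (A.valuation_le_one_iff _).2 (h.integral _ (he m) s)) (he1 s)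
          ((A.valuation_le_one_iff _).2 (hρ s)) (hτ s) hn hj hjn (heq s) (hys s)
        simpa [Finset.sum_apply] using this
  obtain ⟨y, hy, hys⟩ := key n (by omega) le_rfl
  have hle : ∀ s, A.valuation (τ s - y s) ≤ A.valuation ϖ := fun s => by
    rw [Valuation.map_sub_swap]
    exact (hys s).trans (hnϖ s)
  have h1 := hϖ (fun s => (τ s - y s) / ϖ) (fun s => by
    rw [← A.valuation_le_one_iff, map_div₀]
    exact div_le_one_of_le₀ (hle s) zero_le)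
  have h2 : τ = y + ϖ • (fun s => (τ s - y s) / ϖ) := by
    funext s
    simp only [Pi.add_apply, Pi.smul_apply, smul_eq_mul]
    by_cases h0 : ϖ = 0
    · have h3 := hle s
      rw [h0, map_zero, le_zero_iff, map_eq_zero, sub_eq_zero] at h3
      rw [h0, zero_mul, add_zero, h3]
    · field_simp
      ring
  rw [h2]
  exact Hh.add_mem hy h1

end Fermat.Agent.FLAT
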